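/-
P-SS row 976 (KT-C6 DESC, helper58), part 1 : field theory.

`A` a valuation subring of `ℚ̄`, `H` a subgroup of `Gal(ℚ̄/ℚ)` (in the application the inertia
group `I_A`), `N` a finite normal extension of `ℚ` inside `ℚ̄`, `K₁ = ktField N H = N ∩ ℚ̄^H`.

* `kt_exists_mem_restrict_eq` : an automorphism fixing `K₁` pointwise agrees on `N` with an element
  of `H` (finite Galois theory).
* `ktRestrict` : the restriction of an automorphism `φ` stabilising `K₁`.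
* `kt_apply_mem_ktField` : `φ` in the normaliser of `H` stabilises `K₁`.
* `kt_conj_mem_inertiaSubgroupIn` : the decomposition group normalises the inertia group.
* `kt_root_fixed` : an `m`-th root of an `H`-fixed unit of `A` is fixed by `I_A` (`m` prime to the
  residue characteristic).
* `kt_isModelFrobenius` : the restriction of a Frobenius element is a model Frobenius.
-/
import Mathlib
import Fermat.Prelude.Def_EllipticCurve_FrobeniusTrace
import Fermat.Prelude.Def_FLTPrelim_Ramification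
import Fermat.Agent.H53.ES.CycloFrob

set_option autoImplicit false
set_option linter.style.haveILetI false

noncomputable section

namespace Fermat.Agent.H58.KT

/-- `ℚ̄`. -/
abbrev Qb : Type := AlgebraicClosure ℚ

/-- `N ∩ ℚ̄^H`. -/
def ktField (N : IntermediateField ℚ Qb) (H : Subgroup (Qb ≃ₐ[ℚ] Qb)) :
    IntermediateField ℚ Qb :=
  N ⊓ IntermediateField.fixedField H

theorem mem_ktField {N : IntermediateField ℚ Qb} {H : Subgroup (Qb ≃ₐ[ℚ] Qb)} {x : Qb} :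
    x ∈ ktField N H ↔ x ∈ N ∧ ∀ σ ∈ H, σ x = x := by
  rw [ktField, IntermediateField.mem_inf, IntermediateField.mem_fixedField_iff]

theorem ktField_le (N : IntermediateField ℚ Qb) (H : Subgroup (Qb ≃ₐ[ℚ] Qb)) :
    ktField N H ≤ N := inf_le_left

instance ktField_finiteDimensional (N : IntermediateField ℚ Qb) [FiniteDimensional ℚ ↥N]
    (H : Subgroup (Qb ≃ₐ[ℚ] Qb)) : FiniteDimensional ℚ ↥(ktField N H) :=
  FiniteDimensional.of_injective
    (IntermediateField.inclusion (ktField_le N H)).toLinearMap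
    (IntermediateField.inclusion (ktField_le N H)).injective

/-- **Finite Galois theory**: an automorphism of `ℚ̄` fixing `N ∩ ℚ̄^H` pointwise agrees on the
finite normal extension `N` with an element of `H`. -/
theorem kt_exists_mem_restrict_eq (N : IntermediateField ℚ Qb) [FiniteDimensional ℚ ↥N]
    [Normal ℚ ↥N] (H : Subgroup (Qb ≃ₐ[ℚ] Qb)) (σ : Qb ≃ₐ[ℚ] Qb)
    (hσ : ∀ x ∈ ktField N H, σ x = x) :
    ∃ τ ∈ H, ∀ x ∈ N, τ x = σ x := by
  classical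
  set r : (Qb ≃ₐ[ℚ] Qb) →* (↥N ≃ₐ[ℚ] ↥N) := AlgEquiv.restrictNormalHom ↥N with hr
  have hcomm : ∀ (τ : Qb ≃ₐ[ℚ] Qb) (y : ↥N), ((r τ y : ↥N) : Qb) = τ (y : Qb) := fun τ y =>
    AlgEquiv.restrictNormal_commutes τ ↥N y
  set Hbar : Subgroup (↥N ≃ₐ[ℚ] ↥N) := H.map r with hHbar
  have hmem : r σ ∈ IntermediateField.fixingSubgroup (IntermediateField.fixedField Hbar) := by
    rw [IntermediateField.mem_fixingSubgroup_iff]
    intro y hy
    apply Subtype.ext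
    rw [hcomm]
    apply hσ
    rw [mem_ktField]
    refine ⟨y.2, fun τ hτ => ?_⟩
    have h1 : r τ ∈ Hbar := Subgroup.mem_map_of_mem r hτ
    have h2 := (IntermediateField.mem_fixedField_iff Hbar y).mp hy (r τ) h1
    rw [← hcomm τ y, h2]
  rw [IntermediateField.fixingSubgroup_fixedField] at hmem
  obtain ⟨τ, hτ, hτσ⟩ := hmem
  refine ⟨τ, hτ, fun x hx => ?_⟩
  have h3 := hcomm τ ⟨x, hx⟩
  rw [hτσ, hcomm σ ⟨x, hx⟩] at h3
  exact h3.symm

/-- Restriction of an automorphism to a stable intermediate field. -/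
def ktRestrict (K₁ : IntermediateField ℚ Qb) (φ : Qb ≃ₐ[ℚ] Qb)
    (h1 : ∀ x ∈ K₁, φ x ∈ K₁) (h2 : ∀ x ∈ K₁, φ.symm x ∈ K₁) : ↥K₁ ≃ₐ[ℚ] ↥K₁ where
  toFun x := ⟨φ x, h1 x x.2⟩
  invFun x := ⟨φ.symm x, h2 x x.2⟩
  left_inv x := Subtype.ext (φ.symm_apply_apply x)
  right_inv x := Subtype.ext (φ.apply_symm_apply x)
  map_mul' x y := Subtype.ext (map_mul φ (x : Qb) (y : Qb))
  map_add' x y := Subtype.ext (map_add φ (x : Qb) (y : Qb))
  commutes' c := Subtype.ext (φ.commutes c)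

@[simp]
theorem coe_ktRestrict (K₁ : IntermediateField ℚ Qb) (φ : Qb ≃ₐ[ℚ] Qb)
    (h1 : ∀ x ∈ K₁, φ x ∈ K₁) (h2 : ∀ x ∈ K₁, φ.symm x ∈ K₁) (x : ↥K₁) :
    ((ktRestrict K₁ φ h1 h2 x : ↥K₁) : Qb) = φ (x : Qb) := rfl

/-- A normal intermediate field is stable under every automorphism. -/
theorem kt_apply_mem_of_normal (N : IntermediateField ℚ Qb) [Normal ℚ ↥N] (φ : Qb ≃ₐ[ℚ] Qb)
    {x : Qb} (hx : x ∈ N) : φ x ∈ N := by
  have h := AlgEquiv.restrictNormal_commutes φ ↥N ⟨x, hx⟩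
  have h2 : ((φ.restrictNormal ↥N ⟨x, hx⟩ : ↥N) : Qb) ∈ N := (φ.restrictNormal ↥N ⟨x, hx⟩).2
  have h3 : ((φ.restrictNormal ↥N ⟨x, hx⟩ : ↥N) : Qb) = φ x := h
  rwa [h3] at h2

/-- If `φ` normalises `H` (one inclusion), it maps `N ∩ ℚ̄^H` into itself. -/
theorem kt_apply_mem_ktField (N : IntermediateField ℚ Qb) [Normal ℚ ↥N]
    (H : Subgroup (Qb ≃ₐ[ℚ] Qb)) (φ : Qb ≃ₐ[ℚ] Qb)
    (hφ : ∀ τ ∈ H, φ⁻¹ * τ * φ ∈ H) {x : Qb} (hx : x ∈ ktField N H) :
    φ x ∈ ktField N H := by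
  rw [mem_ktField] at hx ⊢
  refine ⟨kt_apply_mem_of_normal N φ hx.1, fun τ hτ => ?_⟩
  have h1 := hx.2 _ (hφ τ hτ)
  have h2 : (φ⁻¹ * τ * φ) x = φ⁻¹ (τ (φ x)) := rfl
  rw [h2] at h1
  have h3 := congrArg φ h1
  have h4 : φ (φ⁻¹ (τ (φ x))) = τ (φ x) := φ.apply_symm_apply _
  rw [h4] at h3
  exact h3

section Inertia

variable (A : ValuationSubring Qb)

/-- The decomposition group normalises the inertia group. -/
theorem kt_conj_mem_inertiaSubgroupIn {φ τ : Qb ≃ₐ[ℚ] Qb}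
    (hφ : φ ∈ A.decompositionSubgroup ℚ) (hτ : τ ∈ A.inertiaSubgroupIn ℚ) :
    φ⁻¹ * τ * φ ∈ A.inertiaSubgroupIn ℚ := by
  obtain ⟨τ', hτ', rfl⟩ := hτ
  set φ' : A.decompositionSubgroup ℚ := ⟨φ, hφ⟩ with hφ'
  have hn : (A.inertiaSubgroup ℚ).Normal := by
    unfold ValuationSubring.inertiaSubgroup
    infer_instance
  have h1 : φ'⁻¹ * τ' * φ' ∈ A.inertiaSubgroup ℚ := by
    have := hn.conj_mem τ' hτ' φ'⁻¹
    rwa [inv_inv] at this
  exact ⟨φ'⁻¹ * τ' * φ', h1, rfl⟩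

theorem kt_conj_mem_inertiaSubgroupIn' {φ τ : Qb ≃ₐ[ℚ] Qb}
    (hφ : φ ∈ A.decompositionSubgroup ℚ) (hτ : τ ∈ A.inertiaSubgroupIn ℚ) :
    φ * τ * φ⁻¹ ∈ A.inertiaSubgroupIn ℚ := by
  have := kt_conj_mem_inertiaSubgroupIn A ((A.decompositionSubgroup ℚ).inv_mem hφ) hτ
  rwa [inv_inv] at this

/-- The number field `N ∩ ℚ̄^{I_A}`. -/
abbrev ktUnrField (N : IntermediateField ℚ Qb) : IntermediateField ℚ Qb :=
  ktField N (A.inertiaSubgroupIn ℚ)

theorem kt_apply_mem_ktUnrField (N : IntermediateField ℚ Qb) [Normal ℚ ↥N]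
    {φ : Qb ≃ₐ[ℚ] Qb} (hφ : φ ∈ A.decompositionSubgroup ℚ) {x : Qb}
    (hx : x ∈ ktUnrField A N) : φ x ∈ ktUnrField A N :=
  kt_apply_mem_ktField N _ φ (fun _ hτ => kt_conj_mem_inertiaSubgroupIn A hφ hτ) hx

theorem kt_symm_apply_mem_ktUnrField (N : IntermediateField ℚ Qb) [Normal ℚ ↥N]
    {φ : Qb ≃ₐ[ℚ] Qb} (hφ : φ ∈ A.decompositionSubgroup ℚ) {x : Qb}
    (hx : x ∈ ktUnrField A N) : φ.symm x ∈ ktUnrField A N := by
  have h := kt_apply_mem_ktField N (A.inertiaSubgroupIn ℚ) φ⁻¹ (fun τ hτ => by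
    have := kt_conj_mem_inertiaSubgroupIn' A hφ hτ
    rwa [inv_inv]) hx
  exact h

/-- The restriction of `φ ∈ D_A` to `N ∩ ℚ̄^{I_A}`. -/
def ktFrob (N : IntermediateField ℚ Qb) [Normal ℚ ↥N] {φ : Qb ≃ₐ[ℚ] Qb}
    (hφ : φ ∈ A.decompositionSubgroup ℚ) : ↥(ktUnrField A N) ≃ₐ[ℚ] ↥(ktUnrField A N) :=
  ktRestrict (ktUnrField A N) φ (fun _ hx => kt_apply_mem_ktUnrField A N hφ hx)
    (fun _ hx => kt_symm_apply_mem_ktUnrField A N hφ hx)

@[simp]
theorem coe_ktFrob (N : IntermediateField ℚ Qb) [Normal ℚ ↥N] {φ : Qb ≃ₐ[ℚ] Qb}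
    (hφ : φ ∈ A.decompositionSubgroup ℚ) (x : ↥(ktUnrField A N)) :
    ((ktFrob A N hφ x : ↥(ktUnrField A N)) : Qb) = φ (x : Qb) := rfl

end Inertia

section Units

variable (A : ValuationSubring Qb)

/-- An element of the decomposition group preserves `A` in both directions. -/
theorem kt_apply_mem_iff {φ : Qb ≃ₐ[ℚ] Qb} (hφ : φ ∈ A.decompositionSubgroup ℚ) (x : Qb) :
    φ x ∈ A ↔ x ∈ A := by
  constructor
  · intro h
    have h1 := Fermat.Agent.H53.apply_mem_of_mem_decomp A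
      ((A.decompositionSubgroup ℚ).inv_mem hφ) h
    have h2 : φ⁻¹ (φ x) = x := φ.symm_apply_apply x
    rwa [h2] at h1
  · exact fun h => Fermat.Agent.H53.apply_mem_of_mem_decomp A hφ h

/-- `m` prime to the residue characteristic `q` is not in the maximal ideal. -/
theorem kt_natCast_not_mem_nonunits {q : ℕ} (hq : q.Prime) (hA : A.LiesOverPrime q) {m : ℕ}
    (hqm : ¬ q ∣ m) : (m : Qb) ∉ A.nonunits := by
  intro hmA
  have hA' : (q : Qb) ∈ A.nonunits := hA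
  have hcop : IsCoprime (q : ℤ) (m : ℤ) :=
    Nat.isCoprime_iff_coprime.mpr ((Nat.Prime.coprime_iff_not_dvd hq).mpr hqm)
  obtain ⟨u, v, huv⟩ := hcop
  have h1 : ((u : Qb) * (q : Qb) + (v : Qb) * (m : Qb)) = 1 := by
    exact_mod_cast congrArg (Int.cast (R := Qb)) huv
  have h2 : (1 : Qb) ∈ A.nonunits := by
    rw [← h1]
    refine add_mem ?_ ?_
    · rw [mul_comm]
      exact Fermat.Agent.H53.nonunits_mul_mem A hA' (Fermat.Agent.H53.intCast_mem_valuationSubring A u)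
    · rw [mul_comm]
      exact Fermat.Agent.H53.nonunits_mul_mem A hmA (Fermat.Agent.H53.intCast_mem_valuationSubring A v)
  rw [ValuationSubring.mem_nonunits_iff, map_one] at h2
  exact lt_irrefl _ h2

/-- An `m`-th root of a unit of `A` is a unit of `A`. -/
theorem kt_root_mem {m : ℕ} (hm : 0 < m) {κ u : Qb} (hκ : κ ^ m = u) (hu0 : u ≠ 0)
    (hu : u ∈ A) (hu' : u⁻¹ ∈ A) : κ ∈ A ∧ κ⁻¹ ∈ A := by
  have hv : A.valuation u = 1 := by
    have h1 := (A.valuation_le_one_iff u).mpr hu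
    have h2 := (A.valuation_le_one_iff u⁻¹).mpr hu'
    rw [map_inv₀] at h2
    have h0 : A.valuation u ≠ 0 := (map_ne_zero _).mpr hu0
    have h3 : 1 ≤ A.valuation u := by
      rwa [inv_le_one₀ (zero_lt_iff.mpr h0)] at h2
    exact le_antisymm h1 h3
  have hvκ : A.valuation κ = 1 := by
    have h1 : A.valuation κ ^ m = 1 := by rw [← map_pow, hκ, hv]
    exact (pow_eq_one_iff_of_nonneg zero_le hm.ne').mp h1
  refine ⟨(A.valuation_le_one_iff κ).mp hvκ.le, (A.valuation_le_one_iff κ⁻¹).mp ?_⟩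
  rw [map_inv₀, hvκ, inv_one]

/-- **Roots of unramified units are unramified**: an `m`-th root of a unit of `A` fixed by an
inertia element `σ` is fixed by `σ` (`m` prime to the residue characteristic). -/
theorem kt_root_fixed {m : ℕ} (hm : 0 < m) (hmA : (m : Qb) ∉ A.nonunits) {κ u : Qb}
    (hκ : κ ^ m = u) (hu : u ∈ A) (hu' : u⁻¹ ∈ A) {σ : Qb ≃ₐ[ℚ] Qb}
    (hσ : σ ∈ A.inertiaSubgroupIn ℚ) (hσu : σ u = u) : σ κ = κ := by
  rcases eq_or_ne κ 0 with rfl | hκ0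
  · exact map_zero σ
  have hu0 : u ≠ 0 := by
    rw [← hκ]
    exact pow_ne_zero m hκ0
  obtain ⟨hκA, hκA'⟩ := kt_root_mem A hm hκ hu0 hu hu'
  have hnon := Fermat.Agent.H53.apply_sub_mem_nonunits_of_mem_inertiaSubgroupIn hσ hκA
  set ω : Qb := σ κ * κ⁻¹ with hω
  have hωm : ω ^ m = 1 := by
    rw [hω, mul_pow, ← map_pow, hκ, hσu, inv_pow, hκ, mul_inv_cancel₀ hu0]
  have hω1 : ω - 1 ∈ A.nonunits := by
    have e : ω - 1 = (σ κ - κ) * κ⁻¹ := by
      rw [hω, sub_mul, mul_inv_cancel₀ hκ0]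
    rw [e]
    exact Fermat.Agent.H53.nonunits_mul_mem A hnon hκA'
  have h1 : ω = 1 :=
    Fermat.Agent.H53.eq_of_pow_eq_one_of_sub_mem_nonunits A hmA (one_pow m) hωm hω1
  have h2 : σ κ = ω * κ := by rw [hω, mul_assoc, inv_mul_cancel₀ hκ0, mul_one]
  rw [h2, h1, one_mul]

end Units

end Fermat.Agent.H58.KT
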