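/-
P-SS row 976 (KT-C6 DESC, helper58), part 2 : the generic pieces of the descent.

* `kt_isModelFrobenius` : the restriction of a Frobenius element at `A` to a number field
  `ι : K₁ → ℚ̄` is a model Frobenius of `A ∩ K₁`.
* `kt_norm_mul`, `kt_norm_pow`, `kt_norm_ne_zero` : multiplicativity of `ss2NormAlong`.
* `kt_map_ktTheta` : `ktTheta` commutes with ring homomorphisms intertwining the operators.
* `kt_leadingCoeff_ktTheta` : `Θ` of a series with leading coefficient `1` has leading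
  coefficient `1`.
* `kt_exists_model` : a function over `ℚ̄` fixed by `H`, defined over the finite normal extension
  `N`, is defined over `N ∩ ℚ̄^H`.
-/
import Fermat.Agent.H58.KT.UnrField
import Fermat.Agent.H55.SS.KTContract
import Fermat.Agent.H35.SS2.CoeffDesc

set_option autoImplicit false
set_option linter.style.haveILetI false

noncomputable section

namespace Fermat.Agent.H58.KT

open AlgebraicCurve ModularCurve
open Fermat.Agent.H22.KL Fermat.Agent.H93.KL Fermat.Agent.H11.SS2 Fermat.Agent.H55.SS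
open Fermat.Agent.H35.SS2

/-! ### Model Frobenius -/

section Frob

variable {K₁ : Type} [Field K₁] [Algebra ℚ K₁]

/-- The restriction of a Frobenius element of `A` to a number field `ι : K₁ → ℚ̄` is a model
Frobenius of `A ∩ K₁`. -/
theorem kt_isModelFrobenius (ι : K₁ →+* QBar) (A : ValuationSubring QBar) (q : ℕ)
    (φ : QBar ≃ₐ[ℚ] QBar) (hφ : A.IsFrobeniusAt φ q)
    (φ₁ : K₁ ≃ₐ[ℚ] K₁) (hφ₁ : ∀ c : K₁, ι (φ₁ c) = φ (ι c)) :
    IsModelFrobenius K₁ ↥(A.comap ι) q φ₁ := by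
  intro a
  have hdec := hφ.mem_decompositionSubgroup
  have ha : ι (a : K₁) ∈ A := a.2
  have hb : φ₁ (a : K₁) ∈ A.comap ι := by
    rw [ValuationSubring.mem_comap, hφ₁]
    exact Fermat.Agent.H53.apply_mem_of_mem_decomp A hdec ha
  refine ⟨⟨φ₁ (a : K₁), hb⟩, rfl, ?_⟩
  have hsub : φ₁ (a : K₁) - (a : K₁) ^ q ∈ A.comap ι :=
    (A.comap ι).sub_mem hb ((A.comap ι).pow_mem a.2 q)
  have e : (⟨φ₁ (a : K₁), hb⟩ : ↥(A.comap ι)) - a ^ q = ⟨φ₁ (a : K₁) - (a : K₁) ^ q, hsub⟩ :=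
    Subtype.ext rfl
  rw [e, isUnit_comap_iff]
  have hnon := Fermat.Agent.H53.IsFrobeniusAt.apply_sub_pow_mem_nonunits hφ ha
  rw [ValuationSubring.mem_nonunits_iff_exists_mem_maximalIdeal] at hnon
  obtain ⟨hmem, hmax⟩ := hnon
  rw [IsLocalRing.mem_maximalIdeal, mem_nonunits_iff] at hmax
  intro hu
  apply hmax
  have e2 : (⟨φ (ι (a : K₁)) - ι (a : K₁) ^ q, hmem⟩ : ↥A)
      = ⟨ι (φ₁ (a : K₁) - (a : K₁) ^ q), hsub⟩ := by
    apply Subtype.ext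
    show φ (ι (a : K₁)) - ι (a : K₁) ^ q = ι (φ₁ (a : K₁) - (a : K₁) ^ q)
    rw [map_sub, map_pow, hφ₁]
  rw [e2]
  exact hu

end Frob

/-! ### Norms -/

section Norm

variable {K F F' : Type*} [Field K] [Field F] [Field F'] [Algebra K F] [Algebra K F']

theorem kt_norm_mul (φ : F →ₐ[K] F') (x y : F') :
    ss2NormAlong φ (x * y) = ss2NormAlong φ x * ss2NormAlong φ y := by
  letI : Algebra F F' := φ.toRingHom.toAlgebra
  exact map_mul (Algebra.norm F) x y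

theorem kt_norm_pow (φ : F →ₐ[K] F') (x : F') (n : ℕ) :
    ss2NormAlong φ (x ^ n) = ss2NormAlong φ x ^ n := by
  letI : Algebra F F' := φ.toRingHom.toAlgebra
  exact map_pow (Algebra.norm F) x n

end Norm

/-! ### The operator `Θ` -/

section Theta

variable {E₁ E₂ : Type*} [Field E₁] [Field E₂]

theorem kt_map_ktQuot (b : E₁ →+* E₂) (ψ₁ : E₁ → E₁) (ψ₂ : E₂ → E₂)
    (hb : ∀ x, b (ψ₁ x) = ψ₂ (b x)) (k : ℕ) (x : E₁) :
    b (ktQuot ψ₁ k x) = ktQuot ψ₂ k (b x) := by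
  unfold ktQuot
  rw [map_div₀, map_pow, hb]

theorem kt_map_ktTheta (b : E₁ →+* E₂) (ψ₁ : E₁ → E₁) (ψ₂ : E₂ → E₂)
    (hb : ∀ x, b (ψ₁ x) = ψ₂ (b x)) (Q : ℕ) (x : E₁) :
    b (ktTheta ψ₁ Q x) = ktTheta ψ₂ Q (b x) := by
  unfold ktTheta
  rw [kt_map_ktQuot b ψ₁ ψ₂ hb, kt_map_ktQuot b ψ₁ ψ₂ hb, kt_map_ktQuot b ψ₁ ψ₂ hb,
    kt_map_ktQuot b ψ₁ ψ₂ hb]

theorem kt_ktTheta_ne_zero (ψ : E₁ →* E₁) (hψ : ∀ g : E₁, g ≠ 0 → ψ g ≠ 0) (Q : ℕ) {g : E₁}
    (hg : g ≠ 0) : ktTheta ψ Q g ≠ 0 := by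
  unfold ktTheta
  exact ktQuot_ne_zero ψ hψ Q (ktQuot_ne_zero ψ hψ Q (ktQuot_ne_zero ψ hψ 1
    (ktQuot_ne_zero ψ hψ 1 hg)))

end Theta

section LeadingCoeff

variable {K₁ : Type} [Field K₁] [Algebra ℚ K₁]

/-- A series with leading coefficient `1` is nonzero. -/
theorem kt_ne_zero_of_leadingCoeff {R : Type*} [Field R] {x : LaurentSeries R}
    (hx : x.leadingCoeff = 1) : x ≠ 0 := by
  rintro rfl
  rw [HahnSeries.leadingCoeff_zero] at hx
  exact zero_ne_one hx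

theorem kt_leadingCoeff_div {R : Type*} [Field R] {x y : LaurentSeries R}
    (hx : x.leadingCoeff = 1) (hy : y.leadingCoeff = 1) : (x / y).leadingCoeff = 1 := by
  have hy0 : y ≠ 0 := kt_ne_zero_of_leadingCoeff hy
  have h1 : (x / y).leadingCoeff * y.leadingCoeff = x.leadingCoeff := by
    rw [← HahnSeries.leadingCoeff_mul, div_mul_cancel₀ x hy0]
  rwa [hy, mul_one, hx] at h1

theorem kt_leadingCoeff_ktQuot (N : ℕ) (σ₁ : K₁ ≃ₐ[ℚ] K₁) (k : ℕ) (x : ModelField K₁ N)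
    (hx : (x : LaurentSeries K₁).leadingCoeff = 1) :
    ((ktQuot (Fermat.Agent.H82.SS.modelSigma K₁ N σ₁) k x : ModelField K₁ N) :
      LaurentSeries K₁).leadingCoeff = 1 := by
  have h1 : ((ktQuot (Fermat.Agent.H82.SS.modelSigma K₁ N σ₁) k x : ModelField K₁ N) :
      LaurentSeries K₁) =
      coeffMap (σ₁ : K₁ →+* K₁) (x : LaurentSeries K₁) / (x : LaurentSeries K₁) ^ k := rfl
  rw [h1]
  refine kt_leadingCoeff_div ?_ ?_
  · rw [leadingCoeff_coeffMap _ σ₁.injective, hx]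
    exact map_one σ₁
  · rw [klAsm_leadingCoeff_pow, hx, one_pow]

theorem kt_leadingCoeff_ktTheta (N : ℕ) (σ₁ : K₁ ≃ₐ[ℚ] K₁) (Q : ℕ) (x : ModelField K₁ N)
    (hx : (x : LaurentSeries K₁).leadingCoeff = 1) :
    ((ktTheta (Fermat.Agent.H82.SS.modelSigma K₁ N σ₁) Q x : ModelField K₁ N) :
      LaurentSeries K₁).leadingCoeff = 1 := by
  unfold ktTheta
  exact kt_leadingCoeff_ktQuot N σ₁ Q _ (kt_leadingCoeff_ktQuot N σ₁ Q _
    (kt_leadingCoeff_ktQuot N σ₁ 1 _ (kt_leadingCoeff_ktQuot N σ₁ 1 x hx)))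

end LeadingCoeff

/-! ### Descent to `N ∩ ℚ̄^H` -/

section Descent

/-- A function over `ℚ̄` fixed (coefficientwise) by `H` and defined over the finite normal
extension `N` of `ℚ` is defined over `N ∩ ℚ̄^H`. -/
theorem kt_exists_model (F₀ : IntermediateField ℚ (LaurentSeries ℚ))
    (f : ↥(laurentBaseChange QBar F₀)) (H : Subgroup (Qb ≃ₐ[ℚ] Qb))
    (hfix : ∀ σ ∈ H, coeffMap ((σ : Qb ≃ₐ[ℚ] Qb) : Qb →+* Qb) (f : LaurentSeries QBar) = f)
    (N : IntermediateField ℚ Qb) [FiniteDimensional ℚ ↥N] [Normal ℚ ↥N]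
    (fN : LaurentSeries ↥N) (hfN : coeffMap (algebraMap ↥N Qb) fN = (f : LaurentSeries QBar)) :
    ∃ f₁ : ↥(laurentBaseChange ↥(ktField N H) F₀),
      klBc (algebraMap ↥(ktField N H) Qb) F₀ f₁ = f := by
  apply exists_klBc_eq_of_fixed
  intro σ hσ
  obtain ⟨τ, hτ, hτσ⟩ := kt_exists_mem_restrict_eq N H σ (fun x hx => hσ ⟨x, hx⟩)
  have h1 : coeffMap ((σ : Qb ≃ₐ[ℚ] Qb) : Qb →+* Qb) (f : LaurentSeries QBar) =
      coeffMap ((τ : Qb ≃ₐ[ℚ] Qb) : Qb →+* Qb) (f : LaurentSeries QBar) := by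
    rw [← hfN, coeffMap_coeffMap, coeffMap_coeffMap]
    exact coeffMap_congr (RingHom.ext fun c : ↥N => (hτσ (c : Qb) c.2).symm) _
  rw [h1]
  exact hfix τ hτ

end Descent

end Fermat.Agent.H58.KT
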