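/-
P-SS row 976 (KT-C6 DESC, helper58), part 3 : the descent theorem.

`toricFrobFF_of_model_of` : `ModelToricStatement M q → ToricFrobFFStatement M q`, given the two
shared inputs of helper35's descent (row 905): **(U)** the inertia field is unramified
(`H35.SS2.UnramUniformiserStatement`, row 987) and **(N)** norms along `α`, `β` commute with the
extension of constants (`H35.SS2.NormBaseChangeStatement`, row 988).

Steps: (S0) WLOG `f` is fixed by `I_A` (helper35's `exists_invariant_rep`) and has leading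
coefficient `1`; (1) `f` is defined over the number field `K₁ = N ∩ ℚ̄^{I_A}`, `N` a finite
normal extension of `ℚ` containing `μ_m`; `K₁` is stable under the Frobenius `φ ∈ D_A`;
(2) `A ∩ K₁` is a discrete valuation ring with uniformiser `q` (U), `φ|K₁` is a model Frobenius;
(3) the orders descend (`H93.KL.placeDescent`), the norm hypotheses descend ((N) + helper35's
`kummer_descent`), the leading coefficient of `Θ f` is `1`; (4) ascend with `klBc`.
-/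
import Fermat.Agent.H58.KT.DescCore
import Fermat.Agent.H35.SS2.Interfaces
import Fermat.Agent.H35.SS2.InvRed
import Fermat.Agent.H93.KL.DescFinal
import Fermat.Agent.H34.KLM.DVR
import Fermat.Agent.H23.PlaceBasic

set_option autoImplicit false
set_option linter.style.haveILetI false
set_option maxHeartbeats 1000000
set_option synthInstance.maxHeartbeats 400000

noncomputable section

namespace Fermat.Agent.H58.KT

open AlgebraicCurve ModularCurve
open Fermat.Agent.H22.KL Fermat.Agent.H93.KL Fermat.Agent.H11.SS2 Fermat.Agent.H55.SS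
open Fermat.Agent.H35.SS2

/-- `ψ = φ²` on the function field over `ℚ̄`, as a monoid homomorphism. -/
def ktPsi (N : ℕ) (φ : Qb ≃ₐ[ℚ] Qb) :
    ↥(modularFunctionFieldBar N) →* ↥(modularFunctionFieldBar N) :=
  ((arithmeticRingAut (modularFunctionFieldFull N) φ).trans
    (arithmeticRingAut (modularFunctionFieldFull N) φ)).toMonoidHom

theorem ktPsi_apply (N : ℕ) (φ : Qb ≃ₐ[ℚ] Qb) (g : ↥(modularFunctionFieldBar N)) :
    ktPsi N φ g = arithmeticGalois (modularFunctionFieldFull N) φ •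
      arithmeticGalois (modularFunctionFieldFull N) φ • g := rfl

theorem ktPsi_ne_zero (N : ℕ) (φ : Qb ≃ₐ[ℚ] Qb) (g : ↥(modularFunctionFieldBar N))
    (hg : g ≠ 0) : ktPsi N φ g ≠ 0 := by
  intro h
  apply hg
  have h1 : ((arithmeticRingAut (modularFunctionFieldFull N) φ).trans
    (arithmeticRingAut (modularFunctionFieldFull N) φ)) g = 0 := h
  exact (map_eq_zero_iff _ (RingEquiv.injective _)).mp h1

/-- `klBc` intertwines the model operator `modelSigma (φ₁ ∘ φ₁)` with `ψ = φ²`. -/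
theorem klBc_modelSigma_sq {K₁ : Type} [Field K₁] [Algebra ℚ K₁] (N : ℕ) (ι : K₁ →+* QBar)
    (φ : QBar ≃ₐ[ℚ] QBar) (φ₁ : K₁ ≃ₐ[ℚ] K₁) (hφ₁ : ∀ c : K₁, ι (φ₁ c) = φ (ι c))
    (x : ModelField K₁ N) :
    klBc ι (modularFunctionFieldFull N)
        (Fermat.Agent.H82.SS.modelSigma K₁ N (φ₁.trans φ₁) x) =
      ktPsi N φ (klBc ι (modularFunctionFieldFull N) x) := by
  apply Subtype.ext
  show coeffMap ι (coeffMap ((φ₁.trans φ₁ : K₁ ≃ₐ[ℚ] K₁) : K₁ →+* K₁) (x : LaurentSeries K₁)) =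
    coeffMap ((φ : QBar ≃ₐ[ℚ] QBar) : QBar →+* QBar)
      (coeffMap ((φ : QBar ≃ₐ[ℚ] QBar) : QBar →+* QBar) (coeffMap ι (x : LaurentSeries K₁)))
  rw [coeffMap_coeffMap, coeffMap_coeffMap, coeffMap_coeffMap]
  refine coeffMap_congr (RingHom.ext fun c : K₁ => ?_) _
  show ι (φ₁ (φ₁ c)) = φ (φ (ι c))
  rw [hφ₁, hφ₁]

/-- **KT-C6 (DESC)**, conditional on the two shared inputs (U), (N) of helper35's descent. -/
theorem toricFrobFF_of_model_of (hU : UnramUniformiserStatement)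
    (hN : NormBaseChangeStatement) (M q : ℕ) [NeZero M] [NeZero q] (hq : q.Prime)
    (h : ModelToricStatement M q) : ToricFrobFFStatement M q := by
  classical
  intro A hA φ hφ m hm hqm f hf hord hinv hα hβ
  show ∃ w : ↥(modularFunctionFieldBar (M * q)), w ^ m = ktTheta (⇑(ktPsi (M * q) φ)) (q ^ 2) f
  have hφD : φ ∈ A.decompositionSubgroup ℚ := hφ.mem_decompositionSubgroup
  have hmA : (m : Qb) ∉ A.nonunits := kt_natCast_not_mem_nonunits A hq hA hqm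
  -- (S0) invariant representative
  obtain ⟨f0, g, hf0, hg0, hfg, hfix⟩ :=
    exists_invariant_rep (M * q) (A.inertiaSubgroupIn ℚ) m hm f hf hord hinv
  have hf0L : (f0 : LaurentSeries Qb) ≠ 0 := fun h0 => hf0 (Subtype.ext h0)
  set c₀ : Qb := (f0 : LaurentSeries Qb).leadingCoeff with hc₀
  have hc₀0 : c₀ ≠ 0 := HahnSeries.leadingCoeff_ne_zero.mpr hf0L
  obtain ⟨κ, hκ⟩ := IsAlgClosed.exists_pow_nat_eq c₀⁻¹ hm
  have hκ0 : κ ≠ 0 := by
    rintro rfl
    rw [zero_pow hm.ne'] at hκ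
    exact inv_ne_zero hc₀0 hκ.symm
  -- normalised representative
  set G : ↥(modularFunctionFieldBar (M * q)) :=
    g * algebraMap Qb ↥(modularFunctionFieldBar (M * q)) κ with hG
  have hG0 : G ≠ 0 := mul_ne_zero hg0 ((map_ne_zero _).mpr hκ0)
  set f1 : ↥(modularFunctionFieldBar (M * q)) := f * G ^ m with hf1
  have hf1eq : f1 = algebraMap Qb ↥(modularFunctionFieldBar (M * q)) c₀⁻¹ * f0 := by
    rw [hf1, hG, mul_pow, ← map_pow, hκ, hfg]
    ring
  have hf1coe : (f1 : LaurentSeries Qb) = HahnSeries.C c₀⁻¹ * (f0 : LaurentSeries Qb) := by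
    rw [hf1eq]
    show algebraMap Qb (LaurentSeries Qb) c₀⁻¹ * (f0 : LaurentSeries Qb) = _
    rw [Fermat.Agent.H98.KL.algebraMap_eq_C]
  have hf1lc : (f1 : LaurentSeries Qb).leadingCoeff = 1 := by
    rw [hf1coe, HahnSeries.leadingCoeff_mul, HahnSeries.C_apply,
      HahnSeries.leadingCoeff_of_single, ← hc₀, inv_mul_cancel₀ hc₀0]
  have hf10 : f1 ≠ 0 := mul_ne_zero hf (pow_ne_zero m hG0)
  have hf0fix : ∀ σ ∈ A.inertiaSubgroupIn ℚ,
      coeffMap ((σ : Qb ≃ₐ[ℚ] Qb) : Qb →+* Qb) (f0 : LaurentSeries Qb) = f0 := by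
    intro σ hσ
    have := congrArg (fun z : ↥(modularFunctionFieldBar (M * q)) => (z : LaurentSeries Qb))
      (hfix σ hσ)
    simpa only [coe_arithmeticGalois_smul] using this
  have hc₀fix : ∀ σ ∈ A.inertiaSubgroupIn ℚ, σ c₀ = c₀ := by
    intro σ hσ
    have h1 := leadingCoeff_coeffMap ((σ : Qb ≃ₐ[ℚ] Qb) : Qb →+* Qb) σ.injective
      (f0 : LaurentSeries Qb)
    rw [hf0fix σ hσ] at h1
    exact h1.symm
  have hf1fix : ∀ σ ∈ A.inertiaSubgroupIn ℚ,
      coeffMap ((σ : Qb ≃ₐ[ℚ] Qb) : Qb →+* Qb) (f1 : LaurentSeries Qb) = f1 := by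
    intro σ hσ
    rw [hf1coe, map_mul, hf0fix σ hσ, HahnSeries.C_apply, coeffMap_single]
    congr 2
    show σ c₀⁻¹ = c₀⁻¹
    rw [map_inv₀, hc₀fix σ hσ]
  have hf1ord : ∀ P : Place Qb ↥(modularFunctionFieldBar (M * q)), (m : ℤ) ∣ P.ord f1 := by
    intro P
    rw [hf1, P.ord_mul hf (pow_ne_zero m hG0), ss2_ord_pow]
    exact dvd_add (hord P) (dvd_mul_right _ _)
  -- the norms of `f1`
  have hnorm : ∀ (ν : ↥(modularFunctionFieldBar M) →ₐ[Qb] ↥(modularFunctionFieldBar (M * q))),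
      (∃ h' : ↥(modularFunctionFieldBar M), h' ^ m = ss2NormAlong ν f) →
      ∃ h' : ↥(modularFunctionFieldBar M), h' ^ m = ss2NormAlong ν f1 := by
    rintro ν ⟨h', hh'⟩
    refine ⟨h' * ss2NormAlong ν G, ?_⟩
    rw [hf1, kt_norm_mul ν f (G ^ m), kt_norm_pow ν G m, mul_pow, hh']
  obtain ⟨Hα, hHα⟩ := hnorm _ hα
  obtain ⟨Hβ, hHβ⟩ := hnorm _ hβ
  -- roots of unity
  haveI : NeZero ((m : ℕ) : ℚ) := ⟨Nat.cast_ne_zero.mpr hm.ne'⟩
  obtain ⟨ζ, hζ⟩ := HasEnoughRootsOfUnity.exists_primitiveRoot Qb m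
  -- (1) the number field
  obtain ⟨K₀, hK₀fin, hD⟩ := coeffDescentFinal (modularFunctionFieldFull (M * q))
    (f1 : LaurentSeries Qb) f1.2
  haveI : FiniteDimensional ℚ ↥K₀ := hK₀fin
  let K' : IntermediateField ℚ Qb := K₀ ⊔ IntermediateField.adjoin ℚ ({ζ} : Set Qb)
  have halg : Algebra.IsAlgebraic ℚ Qb := AlgebraicClosure.isAlgebraic ℚ
  haveI : FiniteDimensional ℚ ↥(IntermediateField.adjoin ℚ ({ζ} : Set Qb)) :=
    IntermediateField.finiteDimensional_adjoin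
      (fun x _ => (Algebra.IsAlgebraic.isAlgebraic (R := ℚ) x).isIntegral)
  haveI : FiniteDimensional ℚ ↥K' := IntermediateField.finiteDimensional_sup _ _
  let N : IntermediateField ℚ Qb := IntermediateField.normalClosure ℚ ↥K' Qb
  haveI hcl : IsAlgClosure ℚ (AlgebraicClosure ℚ) := ⟨inferInstance, inferInstance⟩
  haveI hnorm' : Normal ℚ (AlgebraicClosure ℚ) := IsAlgClosure.normal ℚ (AlgebraicClosure ℚ)
  haveI : Normal ℚ ↥N := normalClosure.normal ℚ ↥K' Qb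
  haveI : FiniteDimensional ℚ ↥N := normalClosure.is_finiteDimensional ℚ ↥K' Qb
  have hK'N : K' ≤ N := IntermediateField.le_normalClosure K'
  have hK₀N : ∀ c ∈ K₀, c ∈ (algebraMap ↥N Qb).range := fun c hc =>
    ⟨⟨c, hK'N ((le_sup_left : K₀ ≤ K') hc)⟩, rfl⟩
  have hζN : ζ ∈ N := hK'N ((le_sup_right : IntermediateField.adjoin ℚ ({ζ} : Set Qb) ≤ K')
    (IntermediateField.subset_adjoin ℚ _ (Set.mem_singleton ζ)))
  obtain ⟨fN, -, hfN⟩ := hD ↥N (algebraMap ↥N Qb) hK₀N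
  obtain ⟨f₁, hf₁⟩ := kt_exists_model (modularFunctionFieldFull (M * q)) f1
    (A.inertiaSubgroupIn ℚ) hf1fix N fN hfN
  -- notation
  let K₁ : IntermediateField ℚ Qb := ktUnrField A N
  let ι : ↥K₁ →+* QBar := algebraMap ↥K₁ Qb
  have hι : Function.Injective ι := ι.injective
  have hunr : IsUnramAt A ι := fun σ hσ x => (mem_ktField.mp x.2).2 σ hσ
  -- (2) the discrete valuation ring and the Frobenius
  haveI hdvr : IsDiscreteValuationRing ↥(A.comap ι) :=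
    Fermat.Agent.H34.modelDVR ↥K₁ ι A q hq hA
  have hirr : Irreducible ((q : ℕ) : ↥(A.comap ι)) := hU q hq A hA ↥K₁ ι hunr
  let φ₁ : ↥K₁ ≃ₐ[ℚ] ↥K₁ := ktFrob A N hφD
  have hφ₁ : ∀ c : ↥K₁, ι (φ₁ c) = φ (ι c) := fun c => rfl
  have hMF : IsModelFrobenius ↥K₁ ↥(A.comap ι) q φ₁ := kt_isModelFrobenius ι A q φ hφ φ₁ hφ₁
  have hmA₀ : IsUnit ((m : ℕ) : ↥(A.comap ι)) := by
    have h1 : ((m : ℕ) : ↥(A.comap ι)) = ⟨(m : ↥K₁), by
        rw [ValuationSubring.mem_comap, map_natCast]; exact natCast_mem A m⟩ :=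
      Subtype.ext (by simp)
    rw [h1, isUnit_comap_iff, valuationSubring_isUnit_iff]
    have hm0 : (m : Qb) ≠ 0 := Nat.cast_ne_zero.mpr hm.ne'
    refine ⟨by simpa using hm0, ?_⟩
    show (ι (m : ↥K₁))⁻¹ ∈ A
    rw [map_natCast]
    rw [ValuationSubring.mem_nonunits_iff, not_lt] at hmA
    rw [← A.valuation_le_one_iff, map_inv₀]
    exact inv_le_one_of_one_le₀ hmA
  -- roots of unity in `K₁`
  have hζK₁ : ζ ∈ K₁ := mem_ktField.mpr ⟨hζN, fun σ hσ =>
    Fermat.Agent.H53.apply_rootOfUnity_of_mem_inertiaSubgroupIn hσ hmA hζ.pow_eq_one⟩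
  have hζ₁ : IsPrimitiveRoot (⟨ζ, hζK₁⟩ : ↥K₁) m :=
    IsPrimitiveRoot.of_map_of_injective (f := ι) (show IsPrimitiveRoot (ι ⟨ζ, hζK₁⟩) m from hζ) hι
  -- (3) the hypotheses of the model statement
  have hf₁0 : f₁ ≠ 0 := by
    intro h0
    apply hf10
    rw [← hf₁, h0, map_zero]
  have hord₁ : ∀ P₁ : Place ↥K₁ (ModelField ↥K₁ (M * q)), (m : ℤ) ∣ P₁.ord f₁ := by
    intro P₁
    obtain ⟨P, hP⟩ := placeDescent (modularFunctionFieldFull (M * q)) ↥K₁ ι P₁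
    rw [← hP f₁, hf₁]
    exact hf1ord P
  have hα₁ : ∃ (γ : ↥K₁) (h' : ModelField ↥K₁ M), γ ≠ 0 ∧
      algebraMap ↥K₁ _ γ * h' ^ m = ss2NormAlong (heckeAlphaBar ↥K₁ M q) f₁ := by
    refine kummer_descent ι (modularFunctionFieldFull M) m hm _ Hα ?_
    rw [(hN M q ↥K₁ ι f₁).1, hf₁]
    exact hHα
  have hβ₁ : ∃ (γ : ↥K₁) (h' : ModelField ↥K₁ M), γ ≠ 0 ∧
      algebraMap ↥K₁ _ γ * h' ^ m = ss2NormAlong (heckeBetaBar ↥K₁ M q) f₁ := by
    refine kummer_descent ι (modularFunctionFieldFull M) m hm _ Hβ ?_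
    rw [(hN M q ↥K₁ ι f₁).2, hf₁]
    exact hHβ
  have hf₁lc : (f₁ : LaurentSeries ↥K₁).leadingCoeff = 1 := by
    apply hι
    rw [← leadingCoeff_coeffMap ι hι, map_one]
    have h1 : coeffMap ι (f₁ : LaurentSeries ↥K₁) = (f1 : LaurentSeries Qb) :=
      congrArg (fun z : ↥(modularFunctionFieldBar (M * q)) => (z : LaurentSeries Qb)) hf₁
    rw [h1, hf1lc]
  have hlc₁ : ∃ κ₁ : ↥K₁, κ₁ ^ m =
      ((ktTheta (Fermat.Agent.H82.SS.modelSigma ↥K₁ (M * q) (φ₁.trans φ₁)) (q ^ 2) f₁ :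
        ModelField ↥K₁ (M * q)) : LaurentSeries ↥K₁).leadingCoeff :=
    ⟨1, by rw [one_pow, kt_leadingCoeff_ktTheta (M * q) (φ₁.trans φ₁) (q ^ 2) f₁ hf₁lc]⟩
  -- (4) the model statement and the ascent
  obtain ⟨w₁, hw₁⟩ := h ↥K₁ ↥(A.comap ι) hirr φ₁ hMF m hm hmA₀ ⟨_, hζ₁⟩ f₁ hf₁0 hord₁ hα₁ hβ₁
    hlc₁
  have h1 := congrArg (klBc ι (modularFunctionFieldFull (M * q))) hw₁
  rw [map_pow, kt_map_ktTheta (klBc ι (modularFunctionFieldFull (M * q)))
    (Fermat.Agent.H82.SS.modelSigma ↥K₁ (M * q) (φ₁.trans φ₁)) (⇑(ktPsi (M * q) φ))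
    (fun x => klBc_modelSigma_sq (M * q) ι φ φ₁ hφ₁ x), hf₁, hf1, ktTheta_mul, ktTheta_pow] at h1
  have hΘG : ktTheta (⇑(ktPsi (M * q) φ)) (q ^ 2) G ≠ 0 :=
    kt_ktTheta_ne_zero (ktPsi (M * q) φ) (ktPsi_ne_zero (M * q) φ) (q ^ 2) hG0
  refine ⟨klBc ι (modularFunctionFieldFull (M * q)) w₁ *
    (ktTheta (⇑(ktPsi (M * q) φ)) (q ^ 2) G)⁻¹, ?_⟩
  rw [mul_pow, h1, inv_pow, mul_assoc, mul_inv_cancel₀ (pow_ne_zero m hΘG), mul_one]

/-- **KT-C6 (DESC)** in the shape of the row. -/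
theorem toricFrobFF_of_model (hU : UnramUniformiserStatement)
    (hN : NormBaseChangeStatement) (M q : ℕ) [NeZero M] [NeZero q] (hq : q.Prime)
    (_hqM : ¬ q ∣ M) : ModelToricStatement M q → ToricFrobFFStatement M q :=
  toricFrobFF_of_model_of hU hN M q hq

end Fermat.Agent.H58.KT
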