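/-
P-SS row 976 (KT-C6 DESC, helper58) : the descent as a contract-independent PACKAGE.

`kt_descent_package` (continuation-passing form): under the hypotheses of (KT-FF) for `f` over
`ℚ̄`, for every finite set `S` of algebraic numbers fixed by the inertia group `I_A` there is a
finite normal extension `N` of `ℚ` such that, with `K₁ = N ∩ ℚ̄^{I_A}`, `ι : K₁ → ℚ̄`,
`A₀ = A ∩ K₁`, `φ₁ = φ|K₁`:
`S ⊆ K₁`, `μ_m ⊆ K₁`, `A₀` is a discrete valuation ring with uniformiser `q`, `m` is a unit of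
`A₀`, `φ₁` is a model Frobenius, and there are `G ≠ 0` over `ℚ̄` and `f₁ ≠ 0` in the model field
of level `M q` over `K₁` with `klBc ι f₁ = f * G ^ m`, leading coefficient `1`, `m ∣ div f₁`, and
both norms of `f₁` constants times `m`-th powers.

`kt_ascend` : an `m`-th root of `Θ f₁` over `K₁` gives an `m`-th root of `Θ f` over `ℚ̄`.

Any variation of the model-level contract (extra roots of unity in `K₁`, …) is a short corollary
of these two statements; see `toricFrobFF_of_model_roots`.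
-/
import Fermat.Agent.H58.KT.Desc
import Fermat.Agent.H3.SS2.Unram
import Fermat.Agent.H36.SS2.NormBC

set_option autoImplicit false
set_option linter.style.haveILetI false
set_option maxHeartbeats 1000000
set_option synthInstance.maxHeartbeats 400000

noncomputable section

namespace Fermat.Agent.H58.KT

open AlgebraicCurve ModularCurve
open Fermat.Agent.H22.KL Fermat.Agent.H93.KL Fermat.Agent.H11.SS2 Fermat.Agent.H55.SS
open Fermat.Agent.H35.SS2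

/-- **The descent package** (continuation-passing form). -/
theorem kt_descent_package (M q : ℕ) [NeZero M] [NeZero q] (hq : q.Prime)
    (A : ValuationSubring Qb) (hA : A.LiesOverPrime q)
    (φ : Qb ≃ₐ[ℚ] Qb) (hφ : A.IsFrobeniusAt φ q)
    (m : ℕ) (hm : 0 < m) (hqm : ¬ q ∣ m)
    (f : ↥(modularFunctionFieldBar (M * q))) (hf : f ≠ 0)
    (hord : ∀ P : Place Qb ↥(modularFunctionFieldBar (M * q)), (m : ℤ) ∣ P.ord f)
    (hinv : ∀ σ ∈ A.inertiaSubgroupIn ℚ, ∃ w : ↥(modularFunctionFieldBar (M * q)),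
      w ^ m * f = arithmeticGalois (modularFunctionFieldFull (M * q)) σ • f)
    (hα : ∃ h : ↥(modularFunctionFieldBar M),
      h ^ m = ss2NormAlong (heckeAlphaBar Qb M q) f)
    (hβ : ∃ h : ↥(modularFunctionFieldBar M),
      h ^ m = ss2NormAlong (heckeBetaBar Qb M q) f)
    (S : Set Qb) (hSfin : S.Finite) (hS : ∀ s ∈ S, ∀ σ ∈ A.inertiaSubgroupIn ℚ, σ s = s)
    (C : Prop)
    (hC : ∀ (N : IntermediateField ℚ Qb) [FiniteDimensional ℚ ↥N] [Normal ℚ ↥N]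
      [IsDiscreteValuationRing ↥(A.comap (algebraMap ↥(ktUnrField A N) Qb))]
      (G : ↥(modularFunctionFieldBar (M * q))) (f₁ : ModelField ↥(ktUnrField A N) (M * q)),
      (∀ s ∈ S, s ∈ ktUnrField A N) →
      Irreducible ((q : ℕ) : ↥(A.comap (algebraMap ↥(ktUnrField A N) Qb))) →
      IsModelFrobenius ↥(ktUnrField A N) ↥(A.comap (algebraMap ↥(ktUnrField A N) Qb)) q
        (ktFrob A N hφ.mem_decompositionSubgroup) →
      IsUnit ((m : ℕ) : ↥(A.comap (algebraMap ↥(ktUnrField A N) Qb))) →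
      (∃ ζ : ↥(ktUnrField A N), IsPrimitiveRoot ζ m) →
      G ≠ 0 → f₁ ≠ 0 →
      klBc (algebraMap ↥(ktUnrField A N) Qb) (modularFunctionFieldFull (M * q)) f₁ = f * G ^ m →
      (f₁ : LaurentSeries ↥(ktUnrField A N)).leadingCoeff = 1 →
      (∀ P : Place ↥(ktUnrField A N) (ModelField ↥(ktUnrField A N) (M * q)),
        (m : ℤ) ∣ P.ord f₁) →
      (∃ (γ : ↥(ktUnrField A N)) (h : ModelField ↥(ktUnrField A N) M), γ ≠ 0 ∧
        algebraMap ↥(ktUnrField A N) _ γ * h ^ m =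
          ss2NormAlong (heckeAlphaBar ↥(ktUnrField A N) M q) f₁) →
      (∃ (γ : ↥(ktUnrField A N)) (h : ModelField ↥(ktUnrField A N) M), γ ≠ 0 ∧
        algebraMap ↥(ktUnrField A N) _ γ * h ^ m =
          ss2NormAlong (heckeBetaBar ↥(ktUnrField A N) M q) f₁) →
      C) : C := by
  classical
  have hU : UnramUniformiserStatement := Fermat.Agent.H3.SS2.unramUniformiser
  have hN : NormBaseChangeStatement := Fermat.Agent.H36.SS2.normBaseChange
  have hφD : φ ∈ A.decompositionSubgroup ℚ := hφ.mem_decompositionSubgroup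
  have hmA : (m : Qb) ∉ A.nonunits := kt_natCast_not_mem_nonunits A hq hA hqm
  -- (S0) invariant representative
  obtain ⟨f0, g, hf0, hg0, hfg, hfix⟩ :=
    exists_invariant_rep (M * q) (A.inertiaSubgroupIn ℚ) m hm f hf hord hinv
  have hf0L : (f0 : LaurentSeries Qb) ≠ 0 := fun h0 => hf0 (Subtype.ext h0)
  set c₀ : Qb := (f0 : LaurentSeries Qb).leadingCoeff with hc₀
  have hc₀0 : c₀ ≠ 0 := HahnSeries.leadingCoeff_ne_zero.mpr hf0L
  obtain ⟨κ, hκ⟩ := IsAlgClosed.exists_pow_nat_eq c₀⁻¹ hm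
  have hκ0 : κ ≠ 0 := by
    rintro rfl
    rw [zero_pow hm.ne'] at hκ
    exact inv_ne_zero hc₀0 hκ.symm
  -- normalised representative
  set G : ↥(modularFunctionFieldBar (M * q)) :=
    g * algebraMap Qb ↥(modularFunctionFieldBar (M * q)) κ with hG
  have hG0 : G ≠ 0 := mul_ne_zero hg0 ((map_ne_zero _).mpr hκ0)
  set f1 : ↥(modularFunctionFieldBar (M * q)) := f * G ^ m with hf1
  have hf1eq : f1 = algebraMap Qb ↥(modularFunctionFieldBar (M * q)) c₀⁻¹ * f0 := by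
    rw [hf1, hG, mul_pow, ← map_pow, hκ, hfg]
    ring
  have hf1coe : (f1 : LaurentSeries Qb) = HahnSeries.C c₀⁻¹ * (f0 : LaurentSeries Qb) := by
    rw [hf1eq]
    show algebraMap Qb (LaurentSeries Qb) c₀⁻¹ * (f0 : LaurentSeries Qb) = _
    rw [Fermat.Agent.H98.KL.algebraMap_eq_C]
  have hf1lc : (f1 : LaurentSeries Qb).leadingCoeff = 1 := by
    rw [hf1coe, HahnSeries.leadingCoeff_mul, HahnSeries.C_apply,
      HahnSeries.leadingCoeff_of_single, ← hc₀, inv_mul_cancel₀ hc₀0]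
  have hf10 : f1 ≠ 0 := mul_ne_zero hf (pow_ne_zero m hG0)
  have hf0fix : ∀ σ ∈ A.inertiaSubgroupIn ℚ,
      coeffMap ((σ : Qb ≃ₐ[ℚ] Qb) : Qb →+* Qb) (f0 : LaurentSeries Qb) = f0 := by
    intro σ hσ
    have := congrArg (fun z : ↥(modularFunctionFieldBar (M * q)) => (z : LaurentSeries Qb))
      (hfix σ hσ)
    simpa only [coe_arithmeticGalois_smul] using this
  have hc₀fix : ∀ σ ∈ A.inertiaSubgroupIn ℚ, σ c₀ = c₀ := by
    intro σ hσ
    have h1 := leadingCoeff_coeffMap ((σ : Qb ≃ₐ[ℚ] Qb) : Qb →+* Qb) σ.injective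
      (f0 : LaurentSeries Qb)
    rw [hf0fix σ hσ] at h1
    exact h1.symm
  have hf1fix : ∀ σ ∈ A.inertiaSubgroupIn ℚ,
      coeffMap ((σ : Qb ≃ₐ[ℚ] Qb) : Qb →+* Qb) (f1 : LaurentSeries Qb) = f1 := by
    intro σ hσ
    rw [hf1coe, map_mul, hf0fix σ hσ, HahnSeries.C_apply, coeffMap_single]
    congr 2
    show σ c₀⁻¹ = c₀⁻¹
    rw [map_inv₀, hc₀fix σ hσ]
  have hf1ord : ∀ P : Place Qb ↥(modularFunctionFieldBar (M * q)), (m : ℤ) ∣ P.ord f1 := by
    intro P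
    rw [hf1, P.ord_mul hf (pow_ne_zero m hG0), ss2_ord_pow]
    exact dvd_add (hord P) (dvd_mul_right _ _)
  have hnorm : ∀ (ν : ↥(modularFunctionFieldBar M) →ₐ[Qb] ↥(modularFunctionFieldBar (M * q))),
      (∃ h' : ↥(modularFunctionFieldBar M), h' ^ m = ss2NormAlong ν f) →
      ∃ h' : ↥(modularFunctionFieldBar M), h' ^ m = ss2NormAlong ν f1 := by
    rintro ν ⟨h', hh'⟩
    refine ⟨h' * ss2NormAlong ν G, ?_⟩
    rw [hf1, kt_norm_mul ν f (G ^ m), kt_norm_pow ν G m, mul_pow, hh']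
  obtain ⟨Hα, hHα⟩ := hnorm _ hα
  obtain ⟨Hβ, hHβ⟩ := hnorm _ hβ
  -- roots of unity
  haveI : NeZero ((m : ℕ) : ℚ) := ⟨Nat.cast_ne_zero.mpr hm.ne'⟩
  obtain ⟨ζ, hζ⟩ := HasEnoughRootsOfUnity.exists_primitiveRoot Qb m
  -- (1) the number field
  obtain ⟨K₀, hK₀fin, hD⟩ := coeffDescentFinal (modularFunctionFieldFull (M * q))
    (f1 : LaurentSeries Qb) f1.2
  haveI : FiniteDimensional ℚ ↥K₀ := hK₀fin
  let K' : IntermediateField ℚ Qb := K₀ ⊔ IntermediateField.adjoin ℚ (insert ζ S)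
  have halg : Algebra.IsAlgebraic ℚ Qb := AlgebraicClosure.isAlgebraic ℚ
  haveI : FiniteDimensional ℚ ↥(IntermediateField.adjoin ℚ (insert ζ S)) := by
    haveI : Finite (insert ζ S : Set Qb) := (hSfin.insert ζ).to_subtype
    exact IntermediateField.finiteDimensional_adjoin
      (fun x _ => (Algebra.IsAlgebraic.isAlgebraic (R := ℚ) x).isIntegral)
  haveI : FiniteDimensional ℚ ↥K' := IntermediateField.finiteDimensional_sup _ _
  let N : IntermediateField ℚ Qb := IntermediateField.normalClosure ℚ ↥K' Qb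
  haveI hcl : IsAlgClosure ℚ (AlgebraicClosure ℚ) := ⟨inferInstance, inferInstance⟩
  haveI hnorm' : Normal ℚ (AlgebraicClosure ℚ) := IsAlgClosure.normal ℚ (AlgebraicClosure ℚ)
  haveI : Normal ℚ ↥N := normalClosure.normal ℚ ↥K' Qb
  haveI : FiniteDimensional ℚ ↥N := normalClosure.is_finiteDimensional ℚ ↥K' Qb
  have hK'N : K' ≤ N := IntermediateField.le_normalClosure K'
  have hK₀N : ∀ c ∈ K₀, c ∈ (algebraMap ↥N Qb).range := fun c hc =>
    ⟨⟨c, hK'N ((le_sup_left : K₀ ≤ K') hc)⟩, rfl⟩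
  have hSN : ∀ s ∈ insert ζ S, s ∈ N := fun s hs =>
    hK'N ((le_sup_right : IntermediateField.adjoin ℚ (insert ζ S) ≤ K')
      (IntermediateField.subset_adjoin ℚ _ hs))
  obtain ⟨fN, -, hfN⟩ := hD ↥N (algebraMap ↥N Qb) hK₀N
  obtain ⟨f₁, hf₁⟩ := kt_exists_model (modularFunctionFieldFull (M * q)) f1
    (A.inertiaSubgroupIn ℚ) hf1fix N fN hfN
  -- notation
  let K₁ : IntermediateField ℚ Qb := ktUnrField A N
  let ι : ↥K₁ →+* QBar := algebraMap ↥K₁ Qb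
  have hι : Function.Injective ι := ι.injective
  have hunr : IsUnramAt A ι := fun σ hσ x => (mem_ktField.mp x.2).2 σ hσ
  -- (2) the discrete valuation ring and the Frobenius
  haveI hdvr : IsDiscreteValuationRing ↥(A.comap ι) :=
    Fermat.Agent.H34.modelDVR ↥K₁ ι A q hq hA
  have hirr : Irreducible ((q : ℕ) : ↥(A.comap ι)) := hU q hq A hA ↥K₁ ι hunr
  let φ₁ : ↥K₁ ≃ₐ[ℚ] ↥K₁ := ktFrob A N hφD
  have hφ₁ : ∀ c : ↥K₁, ι (φ₁ c) = φ (ι c) := fun c => rfl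
  have hMF : IsModelFrobenius ↥K₁ ↥(A.comap ι) q φ₁ := kt_isModelFrobenius ι A q φ hφ φ₁ hφ₁
  have hmA₀ : IsUnit ((m : ℕ) : ↥(A.comap ι)) := by
    have h1 : ((m : ℕ) : ↥(A.comap ι)) = ⟨(m : ↥K₁), by
        rw [ValuationSubring.mem_comap, map_natCast]; exact natCast_mem A m⟩ :=
      Subtype.ext (by simp)
    rw [h1, isUnit_comap_iff, valuationSubring_isUnit_iff]
    have hm0 : (m : Qb) ≠ 0 := Nat.cast_ne_zero.mpr hm.ne'
    refine ⟨by simpa using hm0, ?_⟩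
    show (ι (m : ↥K₁))⁻¹ ∈ A
    rw [map_natCast]
    rw [ValuationSubring.mem_nonunits_iff, not_lt] at hmA
    rw [← A.valuation_le_one_iff, map_inv₀]
    exact inv_le_one_of_one_le₀ hmA
  -- roots of unity in `K₁`
  have hζK₁ : ζ ∈ K₁ := mem_ktField.mpr ⟨hSN ζ (Set.mem_insert ζ S), fun σ hσ =>
    Fermat.Agent.H53.apply_rootOfUnity_of_mem_inertiaSubgroupIn hσ hmA hζ.pow_eq_one⟩
  have hζ₁ : IsPrimitiveRoot (⟨ζ, hζK₁⟩ : ↥K₁) m :=
    IsPrimitiveRoot.of_map_of_injective (f := ι) (show IsPrimitiveRoot (ι ⟨ζ, hζK₁⟩) m from hζ) hι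
  have hSK₁ : ∀ s ∈ S, s ∈ K₁ := fun s hs =>
    mem_ktField.mpr ⟨hSN s (Set.mem_insert_of_mem ζ hs), hS s hs⟩
  -- (3) the hypotheses of the model statement
  have hf₁0 : f₁ ≠ 0 := by
    intro h0
    apply hf10
    rw [← hf₁, h0, map_zero]
  have hord₁ : ∀ P₁ : Place ↥K₁ (ModelField ↥K₁ (M * q)), (m : ℤ) ∣ P₁.ord f₁ := by
    intro P₁
    obtain ⟨P, hP⟩ := placeDescent (modularFunctionFieldFull (M * q)) ↥K₁ ι P₁
    rw [← hP f₁, hf₁]
    exact hf1ord P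
  have hα₁ : ∃ (γ : ↥K₁) (h' : ModelField ↥K₁ M), γ ≠ 0 ∧
      algebraMap ↥K₁ _ γ * h' ^ m = ss2NormAlong (heckeAlphaBar ↥K₁ M q) f₁ := by
    refine kummer_descent ι (modularFunctionFieldFull M) m hm _ Hα ?_
    rw [(hN M q ↥K₁ ι f₁).1, hf₁]
    exact hHα
  have hβ₁ : ∃ (γ : ↥K₁) (h' : ModelField ↥K₁ M), γ ≠ 0 ∧
      algebraMap ↥K₁ _ γ * h' ^ m = ss2NormAlong (heckeBetaBar ↥K₁ M q) f₁ := by
    refine kummer_descent ι (modularFunctionFieldFull M) m hm _ Hβ ?_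
    rw [(hN M q ↥K₁ ι f₁).2, hf₁]
    exact hHβ
  have hf₁lc : (f₁ : LaurentSeries ↥K₁).leadingCoeff = 1 := by
    apply hι
    rw [← leadingCoeff_coeffMap ι hι, map_one]
    have h1 : coeffMap ι (f₁ : LaurentSeries ↥K₁) = (f1 : LaurentSeries Qb) :=
      congrArg (fun z : ↥(modularFunctionFieldBar (M * q)) => (z : LaurentSeries Qb)) hf₁
    rw [h1, hf1lc]
  exact hC N G f₁ hSK₁ hirr hMF hmA₀ ⟨_, hζ₁⟩ hG0 hf₁0 hf₁ hf₁lc hord₁ hα₁ hβ₁

/-- **Ascent**: an `m`-th root of `Θ f₁` in the model field gives an `m`-th root of `Θ f` over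
`ℚ̄`, if `klBc ι f₁ = f * G ^ m`. -/
theorem kt_ascend {K₁ : Type} [Field K₁] [Algebra ℚ K₁] (N : ℕ) (ι : K₁ →+* QBar)
    (φ : QBar ≃ₐ[ℚ] QBar) (φ₁ : K₁ ≃ₐ[ℚ] K₁) (hφ₁ : ∀ c : K₁, ι (φ₁ c) = φ (ι c))
    (m Q : ℕ) (f G : ↥(modularFunctionFieldBar N)) (hG : G ≠ 0) (f₁ : ModelField K₁ N)
    (hf₁ : klBc ι (modularFunctionFieldFull N) f₁ = f * G ^ m)
    (w₁ : ModelField K₁ N)
    (hw₁ : w₁ ^ m = ktTheta (Fermat.Agent.H82.SS.modelSigma K₁ N (φ₁.trans φ₁)) Q f₁) :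
    ∃ w : ↥(modularFunctionFieldBar N),
      w ^ m = ktTheta (fun g : ↥(modularFunctionFieldBar N) =>
        arithmeticGalois (modularFunctionFieldFull N) φ •
          arithmeticGalois (modularFunctionFieldFull N) φ • g) Q f := by
  show ∃ w : ↥(modularFunctionFieldBar N), w ^ m = ktTheta (⇑(ktPsi N φ)) Q f
  have h1 := congrArg (klBc ι (modularFunctionFieldFull N)) hw₁
  rw [map_pow, kt_map_ktTheta (klBc ι (modularFunctionFieldFull N))
    (Fermat.Agent.H82.SS.modelSigma K₁ N (φ₁.trans φ₁)) (⇑(ktPsi N φ))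
    (fun x => klBc_modelSigma_sq N ι φ φ₁ hφ₁ x), hf₁, ktTheta_mul, ktTheta_pow] at h1
  have hΘG : ktTheta (⇑(ktPsi N φ)) Q G ≠ 0 :=
    kt_ktTheta_ne_zero (ktPsi N φ) (ktPsi_ne_zero N φ) Q hG
  refine ⟨klBc ι (modularFunctionFieldFull N) w₁ * (ktTheta (⇑(ktPsi N φ)) Q G)⁻¹, ?_⟩
  rw [mul_pow, h1, inv_pow, mul_assoc, mul_inv_cancel₀ (pow_ne_zero m hΘG), mul_one]

/-- The model-level statement (KT-MODEL) with the additional hypothesis that `K₁` contains the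
`R`-th roots of unity. -/
def ModelToricRootsStatement (M q R : ℕ) [NeZero M] [NeZero q] : Prop :=
  ∀ (K₁ : Type) [Field K₁] [Algebra ℚ K₁] [FiniteDimensional ℚ K₁]
    (A₀ : Type) [CommRing A₀] [IsDomain A₀] [IsDiscreteValuationRing A₀]
    [Algebra A₀ K₁] [IsFractionRing A₀ K₁],
    Irreducible ((q : ℕ) : A₀) →
    ∀ (φ₁ : K₁ ≃ₐ[ℚ] K₁), IsModelFrobenius K₁ A₀ q φ₁ →
    (∃ ζ : K₁, IsPrimitiveRoot ζ R) →
    ∀ (m : ℕ), 0 < m → IsUnit ((m : ℕ) : A₀) → (∃ ζ : K₁, IsPrimitiveRoot ζ m) →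
    ∀ f : ModelField K₁ (M * q), f ≠ 0 →
      (∀ P : Place K₁ (ModelField K₁ (M * q)), (m : ℤ) ∣ P.ord f) →
      (∃ (γ : K₁) (h : ModelField K₁ M), γ ≠ 0 ∧
        algebraMap K₁ _ γ * h ^ m = ss2NormAlong (heckeAlphaBar K₁ M q) f) →
      (∃ (γ : K₁) (h : ModelField K₁ M), γ ≠ 0 ∧
        algebraMap K₁ _ γ * h ^ m = ss2NormAlong (heckeBetaBar K₁ M q) f) →
      (∃ κ : K₁, κ ^ m =
        ((ktTheta (Fermat.Agent.H82.SS.modelSigma K₁ (M * q) (φ₁.trans φ₁)) (q ^ 2) f :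
          ModelField K₁ (M * q)) : LaurentSeries K₁).leadingCoeff) →
      ∃ w : ModelField K₁ (M * q),
        w ^ m = ktTheta (Fermat.Agent.H82.SS.modelSigma K₁ (M * q) (φ₁.trans φ₁)) (q ^ 2) f

/-- **KT-C6 (DESC) with extra roots of unity**: (KT-FF) follows from the model-level statement
over unramified number fields containing `μ_R`, for any `R > 0` prime to `q`. -/
theorem toricFrobFF_of_model_roots (M q R : ℕ) [NeZero M] [NeZero q] (hq : q.Prime)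
    (hR : 0 < R) (hqR : ¬ q ∣ R) (h : ModelToricRootsStatement M q R) :
    ToricFrobFFStatement M q := by
  intro A hA φ hφ m hm hqm f hf hord hinv hα hβ
  haveI : NeZero ((R : ℕ) : ℚ) := ⟨Nat.cast_ne_zero.mpr hR.ne'⟩
  obtain ⟨ζR, hζR⟩ := HasEnoughRootsOfUnity.exists_primitiveRoot Qb R
  have hRA : (R : Qb) ∉ A.nonunits := kt_natCast_not_mem_nonunits A hq hA hqR
  refine kt_descent_package M q hq A hA φ hφ m hm hqm f hf hord hinv hα hβ {ζR}
    (Set.finite_singleton ζR) (fun s hs σ hσ => ?_) _ ?_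
  · rw [Set.mem_singleton_iff] at hs
    subst hs
    exact Fermat.Agent.H53.apply_rootOfUnity_of_mem_inertiaSubgroupIn hσ hRA hζR.pow_eq_one
  · intro N _ _ _ G f₁ hSK hirr hMF hmA₀ hζm hG0 hf₁0 hf₁ hlc hord₁ hα₁ hβ₁
    have hζRK : ζR ∈ ktUnrField A N := hSK ζR (Set.mem_singleton ζR)
    have hζR₁ : IsPrimitiveRoot (⟨ζR, hζRK⟩ : ↥(ktUnrField A N)) R :=
      IsPrimitiveRoot.of_map_of_injective (f := algebraMap ↥(ktUnrField A N) Qb)
        (show IsPrimitiveRoot (algebraMap ↥(ktUnrField A N) Qb ⟨ζR, hζRK⟩) R from hζR)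
        (algebraMap ↥(ktUnrField A N) Qb).injective
    obtain ⟨w₁, hw₁⟩ := h ↥(ktUnrField A N) ↥(A.comap (algebraMap ↥(ktUnrField A N) Qb)) hirr
      (ktFrob A N hφ.mem_decompositionSubgroup) hMF ⟨_, hζR₁⟩ m hm hmA₀ hζm f₁ hf₁0 hord₁ hα₁
      hβ₁ ⟨1, by rw [one_pow, kt_leadingCoeff_ktTheta (M * q) _ (q ^ 2) f₁ hlc]⟩
    exact kt_ascend (M * q) (algebraMap ↥(ktUnrField A N) Qb) φ
      (ktFrob A N hφ.mem_decompositionSubgroup) (fun c => rfl) m (q ^ 2) f G hG0 f₁ hf₁ w₁ hw₁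

end Fermat.Agent.H58.KT
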