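/-
P-SS row 976 (KT-C6 DESC, helper58) : the UNCONDITIONAL descent theorem
`ModelToricStatement M q → ToricFrobFFStatement M q`, with helper3's (U)
(`H3.SS2.unramUniformiser`, row 987) and helper36's (N) (`H36.SS2.normBaseChange`, row 988)
plugged into `toricFrobFF_of_model`.
-/
import Fermat.Agent.H58.KT.Desc
import Fermat.Agent.H3.SS2.Unram
import Fermat.Agent.H36.SS2.NormBC

set_option autoImplicit false

namespace Fermat.Agent.H58.KT

/-- **KT-C6 (DESC)**, unconditional: the function-field form (KT-FF) over `ℚ̄` follows from the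
model-level form (KT-MODEL) over unramified number fields. -/
theorem toricFrobFF_of_model_final (M q : ℕ) [NeZero M] [NeZero q] (hq : q.Prime)
    (hqM : ¬ q ∣ M) :
    Fermat.Agent.H55.SS.ModelToricStatement M q → Fermat.Agent.H55.SS.ToricFrobFFStatement M q :=
  toricFrobFF_of_model Fermat.Agent.H3.SS2.unramUniformiser
    Fermat.Agent.H36.SS2.normBaseChange M q hq hqM

end Fermat.Agent.H58.KT
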