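/-
P-SS row 972 (KT-C2 NORMRED2, owner helper56) : the `W`-symmetry step, by helper58.

For an Atkin-Lehner automorphism `W` of the model field of level `M q` (`q` prime, `q ∤ M`):

* `kt_W_involutive` : `W (W z) = z` (the model field is generated by `α(E')` and `β(E')`,
  helper32's `modelGen_jq`);
* `kt_norm_beta_eq` : `N_β z = N_α (W z)` (norm transport);
* `kt_mem_nonunits_ktV0_iff` : `x ∈ 𝔪_{V_0} ↔ W x ∈ 𝔪_{V_∞}`;
* `kt_normRed2_twin` : clause (Rb) of `H55.SS.ModelNormRed2Statement` follows from clause (Ra);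
* `kt_modelNormRed2_of_alpha` : `ModelNormRed2Statement M q` from its first clause.
-/
import Fermat.Agent.H55.SS.KTModel
import Fermat.Agent.H32.SS.ModelGen

set_option autoImplicit false
set_option linter.style.haveILetI false
set_option linter.unusedSectionVars false

noncomputable section

namespace Fermat.Agent.H58.KT

open AlgebraicCurve ModularCurve Polynomial
open Fermat.Agent.H22.KL Fermat.Agent.H11.SS2 Fermat.Agent.H82.SS Fermat.Agent.H55.SS

section General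

variable {E : Type*} [Field E]

/-- Membership in the maximal ideal of a valuation subring in terms of inverses. -/
theorem kt_mem_nonunits_iff (V : ValuationSubring E) (x : E) :
    x ∈ V.nonunits ↔ x = 0 ∨ x⁻¹ ∉ V := by
  rw [ValuationSubring.mem_nonunits_iff]
  rcases eq_or_ne x 0 with rfl | hx
  · simp
  · rw [or_iff_right hx, ← V.valuation_le_one_iff, map_inv₀, not_le,
      one_lt_inv₀ (zero_lt_iff.mpr ((_root_.map_ne_zero _).mpr hx))]

/-- The maximal ideal of the pull-back of a valuation subring along a field automorphism. -/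
theorem kt_mem_nonunits_comap_iff (V : ValuationSubring E) (W : E ≃+* E) (x : E) :
    x ∈ (V.comap (W : E →+* E)).nonunits ↔ W x ∈ V.nonunits := by
  rw [kt_mem_nonunits_iff, kt_mem_nonunits_iff, ValuationSubring.mem_comap]
  have h1 : (W : E →+* E) x⁻¹ = (W x)⁻¹ := map_inv₀ W x
  rw [h1, EmbeddingLike.map_eq_zero_iff]

end General

section Twin

variable (K₁ : Type) [Field K₁] [Algebra ℚ K₁] (M q : ℕ) [NeZero M] [NeZero q]

/-- The Atkin-Lehner automorphism is an involution. -/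
theorem kt_W_involutive [FiniteDimensional ℚ K₁] (hq : q.Prime) (hqM : ¬ q ∣ M)
    (W : ModelField K₁ (M * q) ≃ₐ[K₁] ModelField K₁ (M * q))
    (hW : IsAtkinLehnerModel K₁ M q W) (z : ModelField K₁ (M * q)) : W (W z) = z := by
  have hj : jq ∈ modularFunctionFieldFull M := by
    have h := ModularCurve.jqd_mem_full M (one_dvd M)
    rwa [ModularCurve.qExpand_one_apply] at h
  let H : ModelField K₁ M := ⟨coeffEmb K₁ jq, coeffEmb_mem_laurentBaseChange K₁ hj⟩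
  obtain ⟨p, hp⟩ := Fermat.Agent.H32.SSGen.modelGen_jq M q hq hqM K₁ H rfl z
  set α : ModelField K₁ M →+* ModelField K₁ (M * q) :=
    (heckeAlphaBar K₁ M q : ModelField K₁ M →+* ModelField K₁ (M * q)) with hα
  set β : ModelField K₁ M →+* ModelField K₁ (M * q) :=
    (heckeBetaBar K₁ M q : ModelField K₁ M →+* ModelField K₁ (M * q)) with hβ
  set Wr : ModelField K₁ (M * q) →+* ModelField K₁ (M * q) :=
    (W : ModelField K₁ (M * q) →+* ModelField K₁ (M * q)) with hWr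
  have hWα : Wr.comp α = β := RingHom.ext fun y => hW.1 y
  have hWβ : Wr.comp β = α := RingHom.ext fun y => hW.2 y
  have e1 : Wr (p.eval₂ α (β H)) = p.eval₂ β (α H) := by
    rw [Polynomial.hom_eval₂, hWα]
    congr 1
    exact hW.2 H
  have e2 : Wr (p.eval₂ β (α H)) = p.eval₂ α (β H) := by
    rw [Polynomial.hom_eval₂, hWβ]
    congr 1
    exact hW.1 H
  have hp' : z = p.eval₂ α (β H) := hp
  show Wr (Wr z) = z
  rw [hp', e1, e2]

/-- Norm transport: the norm along `β` is the norm along `α` after applying `W`. -/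
theorem kt_norm_beta_eq (W : ModelField K₁ (M * q) ≃ₐ[K₁] ModelField K₁ (M * q))
    (hW : IsAtkinLehnerModel K₁ M q W) (z : ModelField K₁ (M * q)) :
    ss2NormAlong (heckeBetaBar K₁ M q) z = ss2NormAlong (heckeAlphaBar K₁ M q) (W z) := by
  unfold ss2NormAlong
  have h := @Algebra.norm_eq_of_equiv_equiv (ModelField K₁ M) (ModelField K₁ (M * q))
    (ModelField K₁ M) (ModelField K₁ (M * q)) _ _ _ _
    (heckeBetaBar K₁ M q).toRingHom.toAlgebra (heckeAlphaBar K₁ M q).toRingHom.toAlgebra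
    (RingEquiv.refl _) W.toRingEquiv (by
      refine RingHom.ext fun y => ?_
      show heckeAlphaBar K₁ M q y = W (heckeBetaBar K₁ M q y)
      rw [hW.2]) z
  exact h

end Twin

section Statement

variable (M q : ℕ) [NeZero M] [NeZero q]

/-- Clause (Rb) of `ModelNormRed2Statement` from clause (Ra), by `W`-symmetry. -/
theorem kt_normRed2_twin (hq : q.Prime) (hqM : ¬ q ∣ M)
    (K₁ : Type) [Field K₁] [Algebra ℚ K₁] [FiniteDimensional ℚ K₁]
    (A₀ : Type) [CommRing A₀] [IsDomain A₀] [IsDiscreteValuationRing A₀]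
    [Algebra A₀ K₁] [IsFractionRing A₀ K₁]
    (W : ModelField K₁ (M * q) ≃ₐ[K₁] ModelField K₁ (M * q)) (hW : IsAtkinLehnerModel K₁ M q W)
    (φ₁ : K₁ ≃ₐ[ℚ] K₁)
    (hRa : ∀ z : ModelField K₁ (M * q),
      z ∈ ktV K₁ A₀ (M * q) → z⁻¹ ∈ ktV K₁ A₀ (M * q) →
      z ∈ ktV0 K₁ A₀ M q W → z⁻¹ ∈ ktV0 K₁ A₀ M q W →
      ∀ y ∈ ktV K₁ A₀ M, z - heckeBetaBar K₁ M q y ∈ (ktV0 K₁ A₀ M q W).nonunits →
        heckeAlphaBar K₁ M q (ss2NormAlong (heckeAlphaBar K₁ M q) z)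
          - z * heckeAlphaBar K₁ M q (modelSigma K₁ M φ₁ y) ∈ (ktV K₁ A₀ (M * q)).nonunits)
    (z : ModelField K₁ (M * q))
    (h1 : z ∈ ktV K₁ A₀ (M * q)) (h1' : z⁻¹ ∈ ktV K₁ A₀ (M * q))
    (h2 : z ∈ ktV0 K₁ A₀ M q W) (h2' : z⁻¹ ∈ ktV0 K₁ A₀ M q W)
    (y : ModelField K₁ M) (hy : y ∈ ktV K₁ A₀ M)
    (hzy : z - heckeAlphaBar K₁ M q y ∈ (ktV K₁ A₀ (M * q)).nonunits) :
    heckeBetaBar K₁ M q (ss2NormAlong (heckeBetaBar K₁ M q) z)
      - z * heckeBetaBar K₁ M q (modelSigma K₁ M φ₁ y) ∈ (ktV0 K₁ A₀ M q W).nonunits := by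
  have hWW := kt_W_involutive K₁ M q hq hqM W hW
  have hnon : ∀ x : ModelField K₁ (M * q),
      x ∈ (ktV0 K₁ A₀ M q W).nonunits ↔ W x ∈ (ktV K₁ A₀ (M * q)).nonunits := fun x =>
    kt_mem_nonunits_comap_iff (ktV K₁ A₀ (M * q)) W.toRingEquiv x
  -- the hypotheses for `W z`
  have a1 : W z ∈ ktV K₁ A₀ (M * q) := (mem_ktV0_iff K₁ A₀ M q W z).mp h2
  have a1' : (W z)⁻¹ ∈ ktV K₁ A₀ (M * q) := by
    rw [← map_inv₀]
    exact (mem_ktV0_iff K₁ A₀ M q W z⁻¹).mp h2'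
  have a2 : W z ∈ ktV0 K₁ A₀ M q W := by
    rw [mem_ktV0_iff, hWW]
    exact h1
  have a2' : (W z)⁻¹ ∈ ktV0 K₁ A₀ M q W := by
    rw [← map_inv₀, mem_ktV0_iff, hWW]
    exact h1'
  have a3 : W z - heckeBetaBar K₁ M q y ∈ (ktV0 K₁ A₀ M q W).nonunits := by
    rw [hnon, map_sub, hWW, hW.2]
    exact hzy
  have key := hRa (W z) a1 a1' a2 a2' y hy a3
  rw [← kt_norm_beta_eq K₁ M q W hW z] at key
  rw [hnon, map_sub, map_mul, hW.2, hW.2]
  exact key

/-- `ModelNormRed2Statement M q` from its first clause (the `α`-norm). -/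
theorem kt_modelNormRed2_of_alpha (hq : q.Prime) (hqM : ¬ q ∣ M)
    (hRa : ∀ (K₁ : Type) [Field K₁] [Algebra ℚ K₁] [FiniteDimensional ℚ K₁]
      (A₀ : Type) [CommRing A₀] [IsDomain A₀] [IsDiscreteValuationRing A₀]
      [Algebra A₀ K₁] [IsFractionRing A₀ K₁],
      Irreducible ((q : ℕ) : A₀) →
      ∀ (W : ModelField K₁ (M * q) ≃ₐ[K₁] ModelField K₁ (M * q)), IsAtkinLehnerModel K₁ M q W →
      ∀ (φ₁ : K₁ ≃ₐ[ℚ] K₁), IsModelFrobenius K₁ A₀ q φ₁ →
      ∀ z : ModelField K₁ (M * q),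
        z ∈ ktV K₁ A₀ (M * q) → z⁻¹ ∈ ktV K₁ A₀ (M * q) →
        z ∈ ktV0 K₁ A₀ M q W → z⁻¹ ∈ ktV0 K₁ A₀ M q W →
        ∀ y ∈ ktV K₁ A₀ M, z - heckeBetaBar K₁ M q y ∈ (ktV0 K₁ A₀ M q W).nonunits →
          heckeAlphaBar K₁ M q (ss2NormAlong (heckeAlphaBar K₁ M q) z)
            - z * heckeAlphaBar K₁ M q (modelSigma K₁ M φ₁ y) ∈
              (ktV K₁ A₀ (M * q)).nonunits) :
    ModelNormRed2Statement M q := by
  intro K₁ _ _ _ A₀ _ _ _ _ _ hirr W hW φ₁ hφ₁ z h1 h1' h2 h2'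
  refine ⟨hRa K₁ A₀ hirr W hW φ₁ hφ₁ z h1 h1' h2 h2', fun y hy hzy => ?_⟩
  exact kt_normRed2_twin M q hq hqM K₁ A₀ W hW φ₁
    (hRa K₁ A₀ hirr W hW φ₁ hφ₁) z h1 h1' h2 h2' y hy hzy

end Statement

end Fermat.Agent.H58.KT
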